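import Fermat.Agent.Frob.Charpoly
import Fermat.Agent.LocalDef.Qbar
import Mathlib.FieldTheory.KummerExtension
import Mathlib.RingTheory.RootsOfUnity.AlgebraicallyClosed
import Mathlib.RingTheory.ZMod.UnitsCyclic
import Mathlib.Data.Nat.Factorization.Induction

/-!
# Roots of an integer fixed by elements of the Galois group

If `q ∤ n a` and `q ∣ b ^ n - a`, every element of the decomposition group at a place over `q` fixes
some `n`th root of `a`. If every element of the Galois group fixes one and `8 ∤ n`, then `a` is an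
`n`th power: when `(ℤ/n)ˣ` is cyclic, the root fixed by an element inducing a generator is fixed
by all, and coprime parts combine.
-/

set_option autoImplicit false
set_option linter.style.haveILetI false

noncomputable section

open Polynomial

namespace FA.PowerResidue

local notation "Qb" => AlgebraicClosure ℚ
local notation "GQ" => AlgebraicClosure ℚ ≃ₐ[ℚ] AlgebraicClosure ℚ

/-- An element of the decomposition group fixes the root reducing to a rational residue. -/
theorem exists_fixed_of_dvd {n : ℕ} (hn : n ≠ 0) {a b : ℤ} {q : ℕ} (hq : q.Prime) (hqn : ¬ q ∣ n)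
    (hqa : ¬ (q : ℤ) ∣ a) (hb : (q : ℤ) ∣ b ^ n - a) {A : ValuationSubring Qb}
    (hA : A.LiesOverPrime q) {σ : GQ} (hσ : σ ∈ A.decompositionSubgroup ℚ) :
    ∃ r : Qb, r ^ n = (a : Qb) ∧ σ r = r := by
  haveI : NeZero n := ⟨hn⟩
  obtain ⟨ζ, hζ⟩ := HasEnoughRootsOfUnity.exists_primitiveRoot Qb n
  obtain ⟨α, hα⟩ := IsAlgClosed.exists_pow_nat_eq (a : Qb) (Nat.pos_of_ne_zero hn)
  have hva : A.valuation (a : Qb) = 1 := FA.Frob.valuation_intCast_of_liesOverPrime hq hA hqa
  have hv1 : ∀ r : Qb, r ^ n = (a : Qb) → A.valuation r = 1 := fun r hr =>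
    (pow_eq_one_iff.mp (by rw [← map_pow, hr, hva]) : _).resolve_right hn
  -- some root is congruent to `b`
  have hprod : A.valuation (((b ^ n - a : ℤ)) : Qb) < 1 := by
    obtain ⟨c, hc⟩ := hb
    rw [hc, Int.cast_mul, map_mul, Int.cast_natCast]
    exact lt_of_le_of_lt (mul_le_of_le_one_right' (FA.Local.intCast_le_one c))
      (A.mem_nonunits_iff.mp hA)
  obtain ⟨i, -, hi⟩ : ∃ i ∈ Finset.range n, A.valuation ((b : Qb) - ζ ^ i * α) < 1 := by
    by_contra hcon
    push Not at hcon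
    refine (not_le.mpr hprod) ?_
    have e := congrArg (Polynomial.eval (b : Qb))
      (X_pow_sub_C_eq_prod hζ (Nat.pos_of_ne_zero hn) hα)
    simp only [eval_sub, eval_pow, eval_X, eval_C, eval_prod] at e
    rw [show (((b ^ n - a : ℤ)) : Qb) = (b : Qb) ^ n - (a : Qb) by push_cast; ring, e, map_prod]
    exact Finset.one_le_prod' hcon
  set r := ζ ^ i * α
  have hr : r ^ n = (a : Qb) := by
    rw [mul_pow, ← pow_mul, mul_comm i n, pow_mul, hζ.pow_eq_one, one_pow, one_mul, hα]
  have hσr : σ r ^ n = (a : Qb) := by rw [← map_pow, hr, map_intCast]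
  have hd : A.valuation (σ r - r) < 1 := by
    have h1 : A.valuation ((b : Qb) - σ r) < 1 := by
      rw [show (b : Qb) - σ r = σ ((b : Qb) - r) by rw [map_sub, map_intCast],
        FA.LocalDef.decomp_map_eq hσ]
      exact hi
    rw [show σ r - r = ((b : Qb) - r) - ((b : Qb) - σ r) by ring]
    exact lt_of_le_of_lt (A.valuation.map_sub _ _) (max_lt hi h1)
  refine ⟨r, hr, by_contra fun hne => ?_⟩
  have hr0 : r ≠ 0 := fun h => by simpa [h] using hv1 r hr
  -- a root of unity congruent to `1` is `1`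
  set z := σ r / r with hz
  have hzn : z ^ n = 1 := by
    rw [hz, div_pow, hσr, hr, div_self]
    rw [← hr]; exact pow_ne_zero n hr0
  have hz1 : z ≠ 1 := fun h => hne ((div_eq_one_iff_eq hr0).mp h)
  have hzv : A.valuation (z - 1) < 1 := by
    rw [hz, div_sub_one hr0, map_div₀, hv1 r hr, div_one]
    exact hd
  have hzA : z ∈ A := (A.valuation_le_one_iff z).mp (by
    rw [hz, map_div₀, hv1 r hr, hv1 _ hσr, div_one])
  have hgeom : ∑ k ∈ Finset.range n, z ^ k = 0 := by
    have h := geom_sum_mul z n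
    rw [hzn, sub_self] at h
    exact (mul_eq_zero.mp h).resolve_right (sub_ne_zero.mpr hz1)
  have hres : IsLocalRing.residue A ⟨z, hzA⟩ = 1 := by
    rw [← map_one (IsLocalRing.residue A), ← sub_eq_zero, ← map_sub,
      IsLocalRing.residue_eq_zero_iff, A.valuation_lt_one_iff]
    exact hzv
  have h0 : ∑ k ∈ Finset.range n, (⟨z, hzA⟩ : A) ^ k = 0 :=
    Subtype.ext (by push_cast; exact hgeom)
  have h1 := congrArg (IsLocalRing.residue A) h0
  simp only [map_sum, map_pow, hres, one_pow, Finset.sum_const, Finset.card_range, nsmul_eq_mul,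
    mul_one, map_zero] at h1
  rw [← map_natCast (IsLocalRing.residue A), IsLocalRing.residue_eq_zero_iff,
    A.valuation_lt_one_iff] at h1
  have hvn : A.valuation ((n : ℤ) : Qb) = 1 := FA.Frob.valuation_intCast_of_liesOverPrime hq hA
    fun h => hqn (Int.natCast_dvd_natCast.mp h)
  rw [Int.cast_natCast] at hvn
  simp [hvn] at h1

/-- If `(ℤ/n)ˣ` is cyclic and every element fixes an `n`th root, a rational number is one. -/
theorem exists_root_of_isCyclic {n : ℕ} [NeZero n] (hcyc : IsCyclic (ZMod n)ˣ) {c : ℚ}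
    (hfix : ∀ σ : GQ, ∃ r : Qb, r ^ n = algebraMap ℚ Qb c ∧ σ r = r) :
    ∃ x : ℚ, x ^ n = c := by
  rcases eq_or_ne c 0 with rfl | hc
  · exact ⟨0, zero_pow (NeZero.ne n)⟩
  obtain ⟨ζ, hζ⟩ := HasEnoughRootsOfUnity.exists_primitiveRoot Qb n
  set χ : GQ →* (ZMod n)ˣ := hζ.autToPow ℚ
  haveI := hcyc
  obtain ⟨g, hg⟩ := IsCyclic.exists_generator (α := χ.range)
  obtain ⟨τ, hτ⟩ := g.2
  obtain ⟨r, hr, hτr⟩ := hfix τ
  have hr0 : r ≠ 0 := fun h => hc (by
    rw [h, zero_pow (NeZero.ne n)] at hr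
    exact (map_eq_zero _).mp hr.symm)
  have hall : ∀ σ : GQ, σ r = r := fun σ => by
    obtain ⟨k, hk⟩ := Subgroup.mem_zpowers_iff.mp (hg ⟨χ σ, σ, rfl⟩)
    set h := (τ ^ k)⁻¹ * σ with hh
    have hker : χ h = 1 := by
      rw [hh, map_mul, map_inv, map_zpow, hτ, show (g : (ZMod n)ˣ) ^ k = χ σ from
        congrArg Subtype.val hk, inv_mul_cancel]
    have hζfix : h ζ = ζ := by
      rw [← hζ.autToPow_spec ℚ h, show hζ.autToPow ℚ h = 1 from hker, Units.val_one]
      rcases eq_or_ne n 1 with rfl | h1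
      · simp [IsPrimitiveRoot.one_right_iff.mp hζ]
      · haveI : Fact (1 < n) := ⟨lt_of_le_of_ne (NeZero.one_le) (Ne.symm h1)⟩
        rw [ZMod.val_one, pow_one]
    obtain ⟨r', hr', hhr'⟩ := hfix h
    obtain ⟨j, -, hj⟩ := hζ.eq_pow_of_pow_eq_one (ξ := r' / r) (by
      rw [div_pow, hr', ← hr, div_self (pow_ne_zero n hr0)])
    have e : r' = ζ ^ j * r := by rw [hj, div_mul_cancel₀ _ hr0]
    have hhr : h r = r := by
      rw [e, map_mul, map_pow, hζfix] at hhr'
      exact mul_left_cancel₀ (pow_ne_zero j (hζ.ne_zero (NeZero.ne n))) hhr'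
    have hst : τ ^ k ∈ MulAction.stabilizer GQ r :=
      Subgroup.zpow_mem _ (show τ • r = r from hτr) k
    calc σ r = (τ ^ k * h) r := by rw [hh, mul_inv_cancel_left]
      _ = (τ ^ k) (h r) := rfl
      _ = r := by rw [hhr]; exact hst
  have hmem : r ∈ IntermediateField.fixedField (⊤ : Subgroup GQ) := fun σ => hall σ.1
  rw [InfiniteGalois.fixedField_bot, IntermediateField.mem_bot] at hmem
  obtain ⟨x, rfl⟩ := hmem
  exact ⟨x, (algebraMap ℚ Qb).injective (by rw [map_pow]; exact hr)⟩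

/-- **If `8 ∤ n` and every element of the Galois group fixes an `n`th root, `c` is one.** -/
theorem exists_root_of_fixed {n : ℕ} (hn : n ≠ 0) (h8 : ¬ 8 ∣ n) {c : ℚ}
    (hfix : ∀ σ : GQ, ∃ r : Qb, r ^ n = algebraMap ℚ Qb c ∧ σ r = r) :
    ∃ x : ℚ, x ^ n = c := by
  induction n using Nat.recOnPrimeCoprime generalizing c with
  | zero => exact absurd rfl hn
  | prime_pow p k hp =>
    haveI : NeZero (p ^ k) := ⟨hn⟩
    refine exists_root_of_isCyclic ?_ hfix
    rcases eq_or_ne p 2 with rfl | hp2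
    · have hk : k ≤ 2 := by
        by_contra h
        exact h8 ((show (8 : ℕ) = 2 ^ 3 by norm_num) ▸ pow_dvd_pow 2 (by omega))
      rw [ZMod.isCyclic_units_iff]
      interval_cases k <;> simp
    · exact ZMod.isCyclic_units_of_prime_pow p hp hp2 k
  | coprime m k hm hk hmk ihm ihk =>
    have hdvd : ∀ {d e : ℕ}, d * e = m * k → ∀ σ : GQ,
        ∃ r : Qb, r ^ d = algebraMap ℚ Qb c ∧ σ r = r := fun {d e} he σ => by
      obtain ⟨r, hr, hσ⟩ := hfix σ
      exact ⟨r ^ e, by rw [← pow_mul, mul_comm e d, he, hr], by rw [map_pow, hσ]⟩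
    obtain ⟨x, hx⟩ := ihm (by omega) (fun h => h8 (h.trans (dvd_mul_right m k))) (hdvd rfl)
    obtain ⟨y, hy⟩ := ihk (by omega) (fun h => h8 (h.trans (dvd_mul_left k m)))
      (hdvd (mul_comm k m))
    rcases eq_or_ne c 0 with rfl | hc
    · exact ⟨0, zero_pow hn⟩
    have hx0 : x ≠ 0 := fun h => hc (by rw [← hx, h, zero_pow (by omega)])
    have hy0 : y ≠ 0 := fun h => hc (by rw [← hy, h, zero_pow (by omega)])
    refine ⟨y ^ Nat.gcdA m k * x ^ Nat.gcdB m k, ?_⟩
    have hb := Nat.gcd_eq_gcd_ab m k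
    rw [Nat.coprime_iff_gcd_eq_one.mp hmk, Nat.cast_one] at hb
    calc (y ^ Nat.gcdA m k * x ^ Nat.gcdB m k) ^ (m * k)
        = (y ^ k) ^ ((m : ℤ) * Nat.gcdA m k) * (x ^ m) ^ ((k : ℤ) * Nat.gcdB m k) := by
          rw [mul_pow, ← zpow_natCast, ← zpow_natCast, ← zpow_natCast y k, ← zpow_natCast x m,
            ← zpow_mul, ← zpow_mul, ← zpow_mul, ← zpow_mul]
          congr 2 <;> push_cast <;> ring
      _ = c := by rw [hx, hy, ← zpow_add₀ hc, ← hb, zpow_one]

end FA.PowerResidue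

end
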